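import Mathlib

/-!
# PROJECT J, slice J-6b (S30 ⟹ S29), part (d): the completion of a Dedekind domain at a maximal
ideal is a complete discrete valuation ring

* `exists_eq_pow_mul_unit`, `isDomain_of`, `isDiscreteValuationRing_of` : a local ring `S` with
  `𝔪 = (π)`, `⋂ 𝔪 ^ n = 0` and `π` not nilpotent is a discrete valuation ring.
* `Completion.*` : for a discrete valuation ring `R`, the completion
  `AdicCompletion (maximalIdeal R) R` is a domain and a discrete valuation ring; `CharZero` and
  finiteness of the residue field are inherited.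
* `exists_completeDVR` : for a Dedekind domain `B` of characteristic zero and a maximal ideal
  `P ≠ ⊥` with finite residue field there is a complete discrete valuation ring `𝒪 : Type` with the
  instances S30 asks for, a ring homomorphism `ι : B →+* 𝒪` and an isomorphism
  `B ⧸ P ≃+* ResidueField 𝒪` compatible with `ι`.
-/

set_option autoImplicit false
set_option linter.unusedSectionVars false
set_option linter.style.haveILetI false

namespace Fermat.Agent.S30.Residual.CompleteLocal

open IsLocalRing

/-! ### A criterion for discrete valuation rings -/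

section Criterion

variable {S : Type*} [CommRing S] [IsLocalRing S]

theorem exists_eq_pow_mul_unit (π : S) (hmax : maximalIdeal S = Ideal.span {π})
    (hinf : ∀ x : S, (∀ n, x ∈ maximalIdeal S ^ n) → x = 0) {x : S} (hx : x ≠ 0) :
    ∃ (n : ℕ) (u : Sˣ), x = π ^ n * u := by
  classical
  have hex : ∃ n : ℕ, x ∉ (maximalIdeal S) ^ n := by
    by_contra hcon
    push Not at hcon
    exact hx (hinf x hcon)
  have h0 : x ∈ (maximalIdeal S) ^ 0 := by simp
  have hpos : 0 < Nat.find hex := by
    rcases Nat.eq_zero_or_pos (Nat.find hex) with h | h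
    · exact absurd h0 (h ▸ Nat.find_spec hex)
    · exact h
  obtain ⟨n, hn⟩ : ∃ n, Nat.find hex = n + 1 := ⟨Nat.find hex - 1, by omega⟩
  have hmem : x ∈ (maximalIdeal S) ^ n := by
    by_contra hcon
    have := Nat.find_min' hex hcon
    omega
  have hnot : x ∉ (maximalIdeal S) ^ (n + 1) := hn ▸ Nat.find_spec hex
  rw [hmax, Ideal.span_singleton_pow, Ideal.mem_span_singleton] at hmem
  obtain ⟨u, rfl⟩ := hmem
  have hu : IsUnit u := by
    by_contra hcon
    have hmem' : u ∈ maximalIdeal S := (mem_maximalIdeal u).mpr hcon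
    rw [hmax, Ideal.mem_span_singleton] at hmem'
    obtain ⟨t, rfl⟩ := hmem'
    apply hnot
    rw [hmax, Ideal.span_singleton_pow, Ideal.mem_span_singleton]
    exact ⟨t, by ring⟩
  exact ⟨n, hu.unit, by simp⟩

theorem isDomain_of (π : S) (hmax : maximalIdeal S = Ideal.span {π})
    (hinf : ∀ x : S, (∀ n, x ∈ maximalIdeal S ^ n) → x = 0) (hnil : ¬ IsNilpotent π) :
    IsDomain S := by
  have : NoZeroDivisors S := by
    refine ⟨fun {a b} hab => ?_⟩
    by_contra hcon
    push Not at hcon
    obtain ⟨n, u, rfl⟩ := exists_eq_pow_mul_unit π hmax hinf hcon.1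
    obtain ⟨m, v, rfl⟩ := exists_eq_pow_mul_unit π hmax hinf hcon.2
    apply hnil
    refine ⟨n + m, ?_⟩
    have h1 : π ^ (n + m) * ((u * v : Sˣ) : S) = 0 := by
      rw [← hab]; push_cast; ring
    exact (IsUnit.mul_left_eq_zero (u * v).isUnit).mp h1
  exact NoZeroDivisors.to_isDomain S

theorem isDiscreteValuationRing_of [IsDomain S] (π : S)
    (hmax : maximalIdeal S = Ideal.span {π})
    (hinf : ∀ x : S, (∀ n, x ∈ maximalIdeal S ^ n) → x = 0) (hπ : π ≠ 0) :
    IsDiscreteValuationRing S := by
  have hπm : π ∈ maximalIdeal S := by rw [hmax]; exact Ideal.mem_span_singleton_self π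
  have hirr : Irreducible π := by
    refine ⟨(mem_maximalIdeal π).1 hπm, fun a b hab => ?_⟩
    by_contra hcon
    push Not at hcon
    have ha : a ∈ maximalIdeal S := (mem_maximalIdeal a).2 hcon.1
    have hb : b ∈ maximalIdeal S := (mem_maximalIdeal b).2 hcon.2
    rw [hmax, Ideal.mem_span_singleton] at ha hb
    obtain ⟨a', rfl⟩ := ha
    obtain ⟨b', rfl⟩ := hb
    have h1 : π * (1 - π * (a' * b')) = 0 := by
      rw [mul_sub, mul_one, sub_eq_zero]
      conv_lhs => rw [hab]
      ring
    rcases mul_eq_zero.1 h1 with h | h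
    · exact hπ h
    · have hu : IsUnit (1 - π * (a' * b')) := by
        by_contra hnu
        have h2 : 1 - π * (a' * b') ∈ maximalIdeal S := (mem_maximalIdeal _).2 hnu
        have h3 : π * (a' * b') ∈ maximalIdeal S := Ideal.mul_mem_right _ _ hπm
        have : (1 : S) ∈ maximalIdeal S := by
          have := Ideal.add_mem _ h2 h3
          simpa using this
        exact (Ideal.ne_top_iff_one _).1 (IsLocalRing.maximalIdeal.isMaximal S).ne_top this
      rw [h] at hu
      exact not_isUnit_zero hu
  refine IsDiscreteValuationRing.ofHasUnitMulPowIrreducibleFactorization ⟨π, hirr, ?_⟩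
  intro x hx
  obtain ⟨n, u, rfl⟩ := exists_eq_pow_mul_unit π hmax hinf hx
  exact ⟨n, u, rfl⟩

end Criterion

/-! ### The completion of a discrete valuation ring -/

namespace Completion

variable (R : Type*) [CommRing R] [IsDomain R] [IsDiscreteValuationRing R]

/-- The completion of `R` at its maximal ideal. -/
abbrev Rhat := AdicCompletion (maximalIdeal R) R

theorem algebraMap_injective : Function.Injective (algebraMap R (Rhat R)) := by
  have h : Function.Injective (AdicCompletion.of (maximalIdeal R) R) :=
    AdicCompletion.of_injective (maximalIdeal R) R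
  intro a b hab
  apply h
  simpa [AdicCompletion.algebraMap_apply] using hab

theorem hinf (x : Rhat R) (hx : ∀ n, x ∈ maximalIdeal (Rhat R) ^ n) : x = 0 := by
  have hH : IsHausdorff (maximalIdeal (Rhat R)) (Rhat R) := inferInstance
  apply hH.haus'
  intro n
  rw [SModEq.zero, smul_eq_mul, Ideal.mul_top]
  exact hx n

theorem exists_uniformizer :
    ∃ π : R, π ≠ 0 ∧ maximalIdeal (Rhat R) = Ideal.span {algebraMap R (Rhat R) π} := by
  obtain ⟨π, hπ⟩ := IsDiscreteValuationRing.exists_irreducible R
  refine ⟨π, hπ.ne_zero, ?_⟩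
  rw [AdicCompletion.maximalIdeal_eq_map]
  have h1 : maximalIdeal R = Ideal.span {π} := hπ.maximalIdeal_eq
  conv_lhs => rw [show Ideal.map (algebraMap R (AdicCompletion (maximalIdeal R) R)) (maximalIdeal R)
    = Ideal.map (algebraMap R (AdicCompletion (maximalIdeal R) R)) (Ideal.span {π}) from
      congrArg _ h1]
  rw [Ideal.map_span, Set.image_singleton]

theorem isDomain : IsDomain (Rhat R) := by
  obtain ⟨π, hπ0, hmax⟩ := exists_uniformizer R
  refine isDomain_of _ hmax (hinf R) ?_
  rintro ⟨n, hn⟩
  rw [← map_pow, ← map_zero (algebraMap R (Rhat R))] at hn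
  exact pow_ne_zero n hπ0 (algebraMap_injective R hn)

theorem isDiscreteValuationRing [IsDomain (Rhat R)] : IsDiscreteValuationRing (Rhat R) := by
  obtain ⟨π, hπ0, hmax⟩ := exists_uniformizer R
  refine isDiscreteValuationRing_of _ hmax (hinf R) ?_
  rw [Ne, ← map_zero (algebraMap R (Rhat R))]
  exact fun h => hπ0 (algebraMap_injective R h)

theorem charZero [CharZero R] : CharZero (Rhat R) :=
  charZero_of_injective_algebraMap (algebraMap_injective R)

theorem finite_residueField [Finite (ResidueField R)] : Finite (ResidueField (Rhat R)) :=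
  Finite.of_surjective _ (AdicCompletion.residueField_map_bijective R).2

end Completion

/-! ### Completing a Dedekind domain at a maximal ideal -/

theorem exists_completeDVR (B : Type) [CommRing B] [IsDedekindDomain B] [CharZero B]
    (P : Ideal B) [hPmax : P.IsMaximal] (hP : P ≠ ⊥) [Finite (B ⧸ P)] :
    ∃ (𝒪 : Type) (_ : CommRing 𝒪) (_ : IsDomain 𝒪) (_ : IsDiscreteValuationRing 𝒪)
      (_ : IsAdicComplete (maximalIdeal 𝒪) 𝒪) (_ : Finite (ResidueField 𝒪)) (_ : CharZero 𝒪)
      (ι : B →+* 𝒪) (e : B ⧸ P ≃+* ResidueField 𝒪),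
      ∀ b : B, e (Ideal.Quotient.mk P b) = residue 𝒪 (ι b) := by
  let R := Localization.AtPrime P
  haveI hDVR : IsDiscreteValuationRing R :=
    IsLocalization.AtPrime.isDiscreteValuationRing_of_dedekind_domain B hP R
  haveI : CharZero R :=
    charZero_of_injective_algebraMap (IsLocalization.injective R P.primeCompl_le_nonZeroDivisors)
  let e₁ : B ⧸ P ≃+* ResidueField R := IsLocalization.AtPrime.equivQuotMaximalIdeal P R
  haveI : Finite (ResidueField R) := Finite.of_equiv _ e₁.toEquiv
  haveI hdom : IsDomain (Completion.Rhat R) := Completion.isDomain R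
  let e₂ : ResidueField R ≃+* ResidueField (Completion.Rhat R) :=
    RingEquiv.ofBijective _ (AdicCompletion.residueField_map_bijective R)
  refine ⟨Completion.Rhat R, inferInstance, hdom, Completion.isDiscreteValuationRing R,
    inferInstance, Completion.finite_residueField R, Completion.charZero R,
    (algebraMap R (Completion.Rhat R)).comp (algebraMap B R), e₁.trans e₂, fun b => ?_⟩
  rw [RingEquiv.trans_apply]
  change e₂ (Ideal.Quotient.mk _ (algebraMap B R b)) = _
  rfl

end Fermat.Agent.S30.Residual.CompleteLocal
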