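import Mathlib
import Fermat.Prelude.Def_CuspForm_HeckeAlgebra
import Fermat.Prelude.Def_FLTPrelim_Modularity
import Fermat.Agent.S49.QCoeff
import Fermat.Agent.S22

/-!
# PROJECT J, slice J-6b (S30 ⟹ S29), parts (b)(c): the eigencharacter of a normalised eigenform

A normalised eigenform in the Prelude's sense (`IsNormalizedEigenform` = relations between the
q-coefficients) is an eigenvector of every Hecke operator; the Hecke algebra therefore acts on it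
through a ring homomorphism `eigenChar : heckeAlgebra N 2 S →+* ℤbar` (integrality from S22) with
`eigenChar (T_ℓ) = a_ℓ(g)`.
-/

set_option autoImplicit false
set_option linter.unusedSectionVars false
set_option linter.style.haveILetI false

namespace Fermat.Agent.S30.Residual.Eigen

open CuspForm CongruenceSubgroup ModularFormClass UpperHalfPlane
open Fermat.Agent.S49.QCoeff

/-- `ℤbar`. -/
abbrev Zbar := integralClosure ℤ ℂ

variable {N : ℕ} {g : CuspForm (Gamma0 N) 2}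

/-- multiplicativity at a prime `ℓ ∤ N` : `a (n ℓ) + [ℓ ∣ n] ℓ a (n / ℓ) = a ℓ * a n`. -/
theorem coeff_relation_T (hg : g.IsNormalizedEigenform) {ℓ : ℕ} (hℓ : ℓ.Prime) (hℓN : ¬ ℓ ∣ N)
    (n : ℕ) :
    qCoeff (⇑g) (n * ℓ) + (if ℓ ∣ n then (ℓ : ℂ) * qCoeff (⇑g) (n / ℓ) else 0) =
      qCoeff (⇑g) ℓ * qCoeff (⇑g) n := by
  rcases Nat.eq_zero_or_pos n with rfl | hn
  · simp [qCoeff_zero]
  obtain ⟨r, m, hm, rfl⟩ := Nat.exists_eq_pow_mul_and_not_dvd hn.ne' ℓ hℓ.ne_one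
  have hcop : ∀ s : ℕ, (ℓ ^ s).Coprime m := fun s =>
    Nat.Coprime.pow_left s ((Nat.Prime.coprime_iff_not_dvd hℓ).2 hm)
  rcases r with _ | s
  · -- `ℓ ∤ n`
    have hnd : ¬ ℓ ∣ ℓ ^ 0 * m := by simpa using hm
    rw [if_neg hnd, pow_zero, one_mul, hg.qCoeff_mul_of_coprime m ℓ
      ((Nat.Prime.coprime_iff_not_dvd hℓ).2 hm).symm, mul_comm, add_zero]
  · have hd : ℓ ∣ ℓ ^ (s + 1) * m := Dvd.dvd.mul_right (dvd_pow_self ℓ (Nat.succ_ne_zero s)) m
    rw [if_pos hd]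
    have e1 : ℓ ^ (s + 1) * m * ℓ = ℓ ^ (s + 2) * m := by ring
    have e2 : ℓ ^ (s + 1) * m / ℓ = ℓ ^ s * m := by
      rw [pow_succ, mul_assoc, mul_comm ℓ m, ← mul_assoc, Nat.mul_div_cancel _ hℓ.pos]
    rw [e1, e2, hg.qCoeff_mul_of_coprime _ _ (hcop (s + 2)),
      hg.qCoeff_mul_of_coprime _ _ (hcop s), hg.qCoeff_mul_of_coprime _ _ (hcop (s + 1)),
      hg.qCoeff_prime_pow_of_not_dvd ℓ s hℓ hℓN]
    ring

/-- multiplicativity at a prime `q ∣ N` : `a (n q) = a q * a n`. -/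
theorem coeff_relation_U (hg : g.IsNormalizedEigenform) {q : ℕ} (hq : q.Prime) (hqN : q ∣ N)
    (n : ℕ) : qCoeff (⇑g) (n * q) = qCoeff (⇑g) q * qCoeff (⇑g) n := by
  rcases Nat.eq_zero_or_pos n with rfl | hn
  · simp [qCoeff_zero]
  obtain ⟨r, m, hm, rfl⟩ := Nat.exists_eq_pow_mul_and_not_dvd hn.ne' q hq.ne_one
  have hcop : ∀ s : ℕ, (q ^ s).Coprime m := fun s =>
    Nat.Coprime.pow_left s ((Nat.Prime.coprime_iff_not_dvd hq).2 hm)
  have e1 : q ^ r * m * q = q ^ (r + 1) * m := by ring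
  rw [e1, hg.qCoeff_mul_of_coprime _ _ (hcop (r + 1)), hg.qCoeff_mul_of_coprime _ _ (hcop r)]
  have hpow : qCoeff (⇑g) (q ^ (r + 1)) = qCoeff (⇑g) q * qCoeff (⇑g) (q ^ r) := by
    rcases r with _ | s
    · simp [hg.qCoeff_one]
    · exact hg.qCoeff_prime_pow_of_dvd q s hq hqN
  rw [hpow]
  ring

theorem heckeTLin_eigen (hg : g.IsNormalizedEigenform) {ℓ : ℕ} (hℓ : ℓ.Prime) (hℓN : ¬ ℓ ∣ N) :
    CuspForm.heckeTLin 2 hℓ hℓN g = qCoeff (⇑g) ℓ • g := by
  apply ext_qCoeff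
  intro n
  rw [qCoeff_heckeTLin, qCoeff_smul, coeff_relation_T hg hℓ hℓN]

theorem heckeULin_eigen [NeZero N] (hg : g.IsNormalizedEigenform) {q : ℕ} (hq : q.Prime)
    (hqN : q ∣ N) : CuspForm.heckeULin 2 hqN g = qCoeff (⇑g) q • g := by
  apply ext_qCoeff
  intro n
  rw [qCoeff_heckeULin, qCoeff_smul, coeff_relation_U hg hq hqN]

variable [NeZero N] (S : Set ℕ)

/-- Every element of the Hecke algebra acts on a normalised eigenform by a scalar. -/
theorem exists_eigenvalue (hg : g.IsNormalizedEigenform)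
    (T : Module.End ℂ (CuspForm (Gamma0 N) 2)) (hT : T ∈ CuspForm.heckeAlgebra N 2 S) :
    ∃ c : ℂ, T g = c • g := by
  induction hT using Algebra.adjoin_induction with
  | mem T hT =>
    rcases hT with ⟨ℓ, hℓ, hℓN, -, rfl⟩ | ⟨q, hqN, hq, -, rfl⟩
    · exact ⟨_, heckeTLin_eigen hg hℓ hℓN⟩
    · exact ⟨_, heckeULin_eigen hg hq hqN⟩
  | algebraMap r =>
    refine ⟨(r : ℂ), ?_⟩
    rw [Algebra.algebraMap_eq_smul_one, LinearMap.smul_apply, Module.End.one_apply,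
      Int.cast_smul_eq_zsmul]
  | add T T' _ _ h h' =>
    obtain ⟨c, hc⟩ := h
    obtain ⟨c', hc'⟩ := h'
    exact ⟨c + c', by rw [LinearMap.add_apply, hc, hc', add_smul]⟩
  | mul T T' _ _ h h' =>
    obtain ⟨c, hc⟩ := h
    obtain ⟨c', hc'⟩ := h'
    exact ⟨c' * c, by rw [Module.End.mul_apply, hc', map_smul, hc, smul_smul]⟩

theorem qCoeff_one_of_eigen (hg : g.IsNormalizedEigenform)
    {T : Module.End ℂ (CuspForm (Gamma0 N) 2)} {c : ℂ} (h : T g = c • g) :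
    qCoeff (⇑(T g)) 1 = c := by
  rw [h, qCoeff_smul, hg.qCoeff_one, mul_one]

/-- The eigencharacter with values in `ℂ`. -/
noncomputable def eigenCharC (hg : g.IsNormalizedEigenform) :
    CuspForm.heckeAlgebra N 2 S →+* ℂ where
  toFun T := qCoeff (⇑(T.1 g)) 1
  map_one' := by
    change qCoeff (⇑((1 : Module.End ℂ (CuspForm (Gamma0 N) 2)) g)) 1 = 1
    rw [Module.End.one_apply, hg.qCoeff_one]
  map_mul' T T' := by
    obtain ⟨c, hc⟩ := exists_eigenvalue S hg T.1 T.2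
    obtain ⟨c', hc'⟩ := exists_eigenvalue S hg T'.1 T'.2
    have h : (T * T').1 g = (c * c') • g := by
      change (T.1 * T'.1) g = _
      rw [Module.End.mul_apply, hc', map_smul, hc, smul_smul, mul_comm]
    rw [qCoeff_one_of_eigen hg h, qCoeff_one_of_eigen hg hc, qCoeff_one_of_eigen hg hc']
  map_zero' := by
    change qCoeff (⇑((0 : Module.End ℂ (CuspForm (Gamma0 N) 2)) g)) 1 = 0
    rw [LinearMap.zero_apply, qCoeff_zero_form]
  map_add' T T' := by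
    change qCoeff (⇑((T.1 + T'.1) g)) 1 = _
    rw [LinearMap.add_apply, qCoeff_add]

theorem eigenCharC_T (hg : g.IsNormalizedEigenform) {ℓ : ℕ} (hℓ : ℓ.Prime) (hℓN : ¬ ℓ ∣ N)
    (hℓS : ℓ ∉ S) :
    eigenCharC S hg (CuspForm.heckeAlgebra.T hℓ hℓN hℓS) = qCoeff (⇑g) ℓ :=
  qCoeff_one_of_eigen hg (heckeTLin_eigen hg hℓ hℓN)

theorem isIntegral_eigenCharC (hg : g.IsNormalizedEigenform) (T : CuspForm.heckeAlgebra N 2 S) :
    IsIntegral ℤ (eigenCharC S hg T) := by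
  haveI : Module.Finite ℤ (CuspForm.heckeAlgebra N 2 S) := Fermat.Agent.S22.result N 2 S
  have hT : IsIntegral ℤ T := Algebra.IsIntegral.isIntegral T
  exact hT.map (eigenCharC S hg).toIntAlgHom

/-- The eigencharacter with values in `ℤbar`. -/
noncomputable def eigenChar (hg : g.IsNormalizedEigenform) :
    CuspForm.heckeAlgebra N 2 S →+* Zbar :=
  (eigenCharC S hg).codRestrict (integralClosure ℤ ℂ).toSubring (isIntegral_eigenCharC S hg)

theorem eigenChar_T (hg : g.IsNormalizedEigenform) {ℓ : ℕ} (hℓ : ℓ.Prime) (hℓN : ¬ ℓ ∣ N)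
    (hℓS : ℓ ∉ S) :
    ((eigenChar S hg (CuspForm.heckeAlgebra.T hℓ hℓN hℓS) : Zbar) : ℂ) = qCoeff (⇑g) ℓ :=
  eigenCharC_T S hg hℓ hℓN hℓS

end Fermat.Agent.S30.Residual.Eigen
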