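import Mathlib

/-!
# PROJECT J, slice J-6b (S30 ⟹ S29), part (d'): a Dedekind domain receiving a finite `ℤ`-algebra of
algebraic integers

`𝕋` a commutative ring, finite as a `ℤ`-module, `χ : 𝕋 →+* ℤbar`, `φ : ℤbar →+* k` with `k` of
characteristic `p`.  Then `χ` factors through a Dedekind domain `B ⊆ ℤbar` (the ring of integers
of the number field generated by the image of `χ`), and `P := ker (φ ∘ incl)` is a nonzero maximal
ideal of `B` with finite residue field : `exists_dedekind`.
-/

set_option autoImplicit false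
set_option linter.unusedSectionVars false
set_option linter.style.haveILetI false

namespace Fermat.Agent.S30.Residual.NumberRing

/-- `ℤbar`. -/
abbrev Zbar := integralClosure ℤ ℂ

theorem exists_dedekind (𝕋 : Type) [CommRing 𝕋] [Module.Finite ℤ 𝕋] (χ : 𝕋 →+* Zbar)
    {k : Type*} [Field k] (p : ℕ) [Fact p.Prime] [CharP k p] (φ : Zbar →+* k) :
    ∃ (B : Type) (_ : CommRing B) (_ : IsDedekindDomain B) (_ : CharZero B)
      (incl : B →+* Zbar) (χB : 𝕋 →+* B) (P : Ideal B) (_ : P.IsMaximal) (_ : Finite (B ⧸ P)),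
      P ≠ ⊥ ∧ (∀ t, incl (χB t) = χ t) ∧ P = RingHom.ker (φ.comp incl) := by
  classical
  -- the number field generated by the image
  obtain ⟨gens, hgens⟩ := (Module.Finite.fg_top : (⊤ : Submodule ℤ 𝕋).FG)
  let χC : 𝕋 →+* ℂ := (algebraMap Zbar ℂ).comp χ
  have hintC : ∀ t, IsIntegral ℤ (χC t) := fun t => (χ t).2
  let K : IntermediateField ℚ ℂ := IntermediateField.adjoin ℚ (χC '' (gens : Set 𝕋))
  haveI : Finite (χC '' (gens : Set 𝕋)) := (gens.finite_toSet.image χC).to_subtype
  haveI hfd : FiniteDimensional ℚ K := IntermediateField.finiteDimensional_adjoin (by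
    rintro x ⟨t, -, rfl⟩
    exact (hintC t).tower_top)
  have hmemK : ∀ t, χC t ∈ K := by
    intro t
    have ht : t ∈ Submodule.span ℤ (gens : Set 𝕋) := by rw [hgens]; trivial
    refine Submodule.span_induction (p := fun t _ => χC t ∈ K) ?_ ?_ ?_ ?_ ht
    · intro x hx
      exact IntermediateField.subset_adjoin ℚ _ ⟨x, hx, rfl⟩
    · rw [map_zero]; exact K.zero_mem
    · intro x y _ _ hx hy
      rw [map_add]; exact K.add_mem hx hy
    · intro n x _ hx
      rw [zsmul_eq_mul, map_mul, map_intCast]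
      exact K.mul_mem (K.intCast_mem n) hx
  let χK : 𝕋 →+* K := χC.codRestrict K hmemK
  have hχK : ∀ t, ((χK t : K) : ℂ) = χC t := fun t => rfl
  -- the ring of integers
  let B := integralClosure ℤ K
  haveI hDed : IsDedekindDomain B := integralClosure.isDedekindDomain ℤ ℚ K
  have hintK : ∀ t, χK t ∈ B := by
    intro t
    have h1 : IsIntegral ℤ (algebraMap K ℂ (χK t)) := hintC t
    exact (isIntegral_algebraMap_iff (FaithfulSMul.algebraMap_injective K ℂ)).1 h1
  let χB : 𝕋 →+* B := χK.codRestrict B hintK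
  have hinclmem : ∀ b : B, ((b : K) : ℂ) ∈ Zbar := by
    intro b
    have hb : IsIntegral ℤ (b : K) := b.2
    exact hb.map (IsScalarTower.toAlgHom ℤ K ℂ)
  let incl : B →+* Zbar :=
    ((algebraMap K ℂ).comp (algebraMap B K)).codRestrict Zbar hinclmem
  have hincl : ∀ b : B, ((incl b : Zbar) : ℂ) = ((b : K) : ℂ) := fun b => rfl
  have hinclinj : Function.Injective incl := by
    intro a b hab
    have h1 := congrArg (fun z : Zbar => (z : ℂ)) hab
    simp only [hincl] at h1
    exact Subtype.ext (Subtype.ext h1)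
  -- the prime
  let P : Ideal B := RingHom.ker (φ.comp incl)
  haveI hPprime : P.IsPrime := RingHom.ker_isPrime _
  have hpP : (p : B) ∈ P := by
    rw [RingHom.mem_ker, map_natCast, CharP.cast_eq_zero]
  have hp0 : (p : B) ≠ 0 := Nat.cast_ne_zero.2 (Fact.out : p.Prime).ne_zero
  have hPbot : P ≠ ⊥ := fun h => hp0 (by rw [h] at hpP; exact hpP)
  have hPmax : P.IsMaximal := hPprime.isMaximal hPbot
  haveI : Module.Free ℤ B := IsIntegralClosure.module_free ℤ ℚ K B
  haveI : Module.Finite ℤ B := IsIntegralClosure.finite ℤ ℚ K B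
  have hfin : Finite (B ⧸ P) := P.finiteQuotientOfFreeOfNeBot hPbot
  refine ⟨B, inferInstance, hDed, inferInstance, incl, χB, P, hPmax, hfin, hPbot, fun t => ?_, rfl⟩
  apply Subtype.ext
  rfl

end Fermat.Agent.S30.Residual.NumberRing
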