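import Mathlib
import Fermat.Prelude.Def_GaloisRep_Adic

/-!
# PROJECT J, slice J-6b (S30 ⟹ S29), part (f): reduction of an adic representation, base-changed
to a field receiving the residue field

`exists_residual ρ k j` : for `ρ : GaloisRepAdic A` and `j : ResidueField A →+* k` there is
`ρ' : ResidualGaloisRep k` whose characteristic polynomials are the images of those of `ρ` and
which is unramified wherever `ρ` is.
-/

set_option autoImplicit false
set_option linter.style.haveILetI false

namespace Fermat.Agent.S30.Residual.Reduce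

open Polynomial IsLocalRing TensorProduct

variable {A : Type} [CommRing A] [IsLocalRing A]

theorem residual_rho (ρ : GaloisRepAdic A) (σ : AlgebraicClosure ℚ ≃ₐ[ℚ] AlgebraicClosure ℚ) :
    ρ.residual.ρ σ = (ρ.ρ σ).baseChange (ResidueField A) := rfl

theorem charpoly_residual (ρ : GaloisRepAdic A)
    (σ : AlgebraicClosure ℚ ≃ₐ[ℚ] AlgebraicClosure ℚ) :
    LinearMap.charpoly (ρ.residual.ρ σ) = (LinearMap.charpoly (ρ.ρ σ)).map (residue A) := by
  exact LinearMap.charpoly_baseChange (A := ResidueField A) (ρ.ρ σ)

theorem exists_residual (ρ : GaloisRepAdic A) (k : Type) [Field k] (j : ResidueField A →+* k) :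
    ∃ ρ' : ResidualGaloisRep k,
      (∀ σ, LinearMap.charpoly (ρ'.ρ σ) =
        (LinearMap.charpoly (ρ.ρ σ)).map (j.comp (residue A))) ∧
      (∀ q : ℕ, ρ.IsUnramifiedAt q → ρ'.IsUnramifiedAt q) := by
  letI : Algebra (ResidueField A) k := j.toAlgebra
  refine ⟨ρ.residual.baseChange k, fun σ => ?_, fun q hq P hP σ hσ => ?_⟩
  · have h1 : LinearMap.charpoly ((ρ.residual.ρ σ).baseChange k) =
        (LinearMap.charpoly (ρ.residual.ρ σ)).map (algebraMap (ResidueField A) k) :=
      LinearMap.charpoly_baseChange (A := k) (ρ.residual.ρ σ)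
    have h2 : (ρ.residual.baseChange k).ρ σ = (ρ.residual.ρ σ).baseChange k := rfl
    rw [h2, h1, charpoly_residual, Polynomial.map_map]
    rfl
  · have h2 : (ρ.residual.baseChange k).ρ σ = (ρ.residual.ρ σ).baseChange k := rfl
    have h3 : ρ.residual.ρ σ = 1 := by
      have : ρ.residual.ρ σ = (ρ.ρ σ).baseChange (ResidueField A) := rfl
      rw [this, hq P hP σ hσ]
      exact LinearMap.baseChange_one (R := A) (A := ResidueField A) (M := ρ.V)
    rw [h2, h3]
    exact LinearMap.baseChange_one (R := ResidueField A) (A := k) (M := ρ.residual.V)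

end Fermat.Agent.S30.Residual.Reduce
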