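import Mathlib

/-!
# PROJECT J, slice J-6b (S30 ⟹ S29), part (e): embedding residue fields into the target of
`φ : ℤbar →+* k`

* `splits_of_monic` : every monic polynomial over `ℤbar = integralClosure ℤ ℂ` splits over `ℤbar`.
* `exists_residue_embedding` : if `E / F` is algebraic, `j' : F →+* k` has image inside `φ(ℤbar)`,
  then `j'` extends to `E →+* k`.
-/

set_option autoImplicit false
set_option linter.style.haveILetI false

namespace Fermat.Agent.S30.Residual.ResidueEmbed

open Polynomial

/-- `ℤbar`. -/
abbrev Zbar := integralClosure ℤ ℂ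

theorem isIntegral_of_root (f : Zbar[X]) (hf : f.Monic) (α : ℂ)
    (hα : (f.map (algebraMap Zbar ℂ)).eval α = 0) : IsIntegral ℤ α := by
  have h1 : IsIntegral Zbar α := ⟨f, hf, by rwa [eval₂_eq_eval_map]⟩
  haveI : Algebra.IsIntegral ℤ Zbar := integralClosure.AlgebraIsIntegral
  exact isIntegral_trans α h1

/-- Every monic polynomial over `ℤbar` splits over `ℤbar`. -/
theorem splits_of_monic (f : Zbar[X]) (hf : f.Monic) : f.Splits := by
  classical
  set fC : ℂ[X] := f.map (algebraMap Zbar ℂ) with hfC
  have hsp : fC.Splits := IsAlgClosed.splits fC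
  have hmon : fC.Monic := hf.map _
  have hprod := hsp.eq_prod_roots_of_monic hmon
  have hint : ∀ α ∈ fC.roots, α ∈ Zbar := fun α hα =>
    isIntegral_of_root f hf α ((mem_roots hmon.ne_zero).1 hα)
  let m' : Multiset Zbar := fC.roots.pmap (fun α h => (⟨α, h⟩ : Zbar)) hint
  have hm' : m'.map (algebraMap Zbar ℂ) = fC.roots := by
    rw [Multiset.map_pmap]
    have : ∀ (α : ℂ) (h : α ∈ Zbar), algebraMap Zbar ℂ ⟨α, h⟩ = α := fun α h => rfl
    simp only [this, Multiset.pmap_eq_map, Multiset.map_id']
  have hg : ((m'.map (fun a => X - C a)).prod).map (algebraMap Zbar ℂ) = fC := by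
    rw [Polynomial.map_multiset_prod, Multiset.map_map]
    conv_rhs => rw [hprod, ← hm', Multiset.map_map]
    congr 1
    apply Multiset.map_congr rfl
    intro a _
    simp
  have hinj : Function.Injective (Polynomial.map (algebraMap Zbar ℂ)) :=
    Polynomial.map_injective _ (FaithfulSMul.algebraMap_injective Zbar ℂ)
  have hfg : f = (m'.map (fun a => X - C a)).prod := hinj (by rw [hg])
  rw [hfg]
  refine Splits.multisetProd ?_
  intro p hp
  obtain ⟨a, -, rfl⟩ := Multiset.mem_map.1 hp
  exact Splits.X_sub_C a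

/-- Extension of a residue field embedding along an algebraic extension, inside the target of a
ring homomorphism from `ℤbar`. -/
theorem exists_residue_embedding {F E k : Type*} [Field F] [Field E] [Field k] [Algebra F E]
    [Algebra.IsAlgebraic F E] (φ : Zbar →+* k) (j' : F →+* k)
    (hj' : ∀ c : F, ∃ a : Zbar, j' c = φ a) :
    ∃ j'' : E →+* k, ∀ c : F, j'' (algebraMap F E c) = j' c := by
  letI : Algebra F k := j'.toAlgebra
  have hK : ∀ s : E, IsIntegral F s ∧ ((minpoly F s).map (algebraMap F k)).Splits := by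
    intro s
    have hs : IsIntegral F s := (Algebra.IsAlgebraic.isAlgebraic s).isIntegral
    refine ⟨hs, ?_⟩
    have hmon : ((minpoly F s).map (algebraMap F k)).Monic := (minpoly.monic hs).map _
    have hl : (minpoly F s).map (algebraMap F k) ∈ lifts φ := by
      rw [lifts_iff_coeff_lifts]
      intro n
      rw [coeff_map]
      obtain ⟨a, ha⟩ := hj' ((minpoly F s).coeff n)
      exact ⟨a, ha.symm⟩
    obtain ⟨q, hq, -, hqm⟩ := lifts_and_natDegree_eq_and_monic hl hmon
    rw [← hq]
    exact (splits_of_monic q hqm).map φ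
  obtain ⟨ψ⟩ := IntermediateField.nonempty_algHom_of_splits hK
  exact ⟨ψ.toRingHom, fun c => ψ.commutes c⟩

end Fermat.Agent.S30.Residual.ResidueEmbed
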