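import Mathlib
import Fermat.Prelude.Def_CuspForm_HeckeGaloisRepDatum
import Fermat.Prelude.Def_GaloisRep_Residual
import Fermat.Agent.S30.Residual.CompleteLocal
import Fermat.Agent.S30.Residual.ResidueEmbed
import Fermat.Agent.S30.Residual.Reduce
import Fermat.Agent.S30.Residual.Eigen
import Fermat.Agent.S30.Residual.NumberRing

/-!
# PROJECT J, slice J-6b: S29 from the statement of S30

`S30Statement` is the frozen proposition of S30 (verbatim); `s29_of_s30 : S30Statement → S29`.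
-/

set_option autoImplicit false
set_option linter.unusedSectionVars false
set_option linter.style.haveILetI false

open Polynomial
open CuspForm CuspForm.IsNormalizedEigenform

namespace Fermat.Agent.S30.Residual.S29OfS30

open IsLocalRing

/-- The frozen statement of S30, verbatim. -/
def S30Statement : Prop :=
    ∀ (p : ℕ) [Fact p.Prime] (N : ℕ) [NeZero N] (S : Finset ℕ)
      (_hpS : p ∈ S) (_hNS : ∀ q : ℕ, q.Prime → q ∣ N → q ∈ S)
      (𝒪' : Type) [CommRing 𝒪'] [IsDomain 𝒪'] [IsDiscreteValuationRing 𝒪']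
      [IsAdicComplete (IsLocalRing.maximalIdeal 𝒪') 𝒪'] [Finite (IsLocalRing.ResidueField 𝒪')]
      [CharZero 𝒪'] (_hp𝒪' : (p : 𝒪') ∈ IsLocalRing.maximalIdeal 𝒪')
      (χ : CuspForm.heckeAlgebra N 2 (↑S : Set ℕ) →+* 𝒪'),
      ∃ (𝒪'' : Type) (_ : CommRing 𝒪'') (_ : IsDomain 𝒪'') (_ : IsDiscreteValuationRing 𝒪'')
        (_ : IsAdicComplete (IsLocalRing.maximalIdeal 𝒪'') 𝒪'')
        (_ : Finite (IsLocalRing.ResidueField 𝒪'')) (_ : CharZero 𝒪'')
        (_ : Algebra 𝒪' 𝒪'') (_ : Module.Finite 𝒪' 𝒪'') (_ : IsLocalHom (algebraMap 𝒪' 𝒪'')),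
      Function.Injective (algebraMap 𝒪' 𝒪'') ∧
      ∃ ρ : GaloisRepAdic 𝒪'',
        (∀ (ℓ : ℕ) (hℓ : ℓ.Prime) (hℓN : ¬ ℓ ∣ N) (hℓS : ℓ ∉ (↑S : Set ℕ)),
          ∀ A : ValuationSubring (AlgebraicClosure ℚ), A.LiesOverPrime ℓ →
            ∀ σ : AlgebraicClosure ℚ ≃ₐ[ℚ] AlgebraicClosure ℚ, A.IsFrobeniusAt σ ℓ →
              LinearMap.charpoly (ρ.ρ σ) =
                X ^ 2 - C (algebraMap 𝒪' 𝒪'' (χ (CuspForm.heckeAlgebra.T hℓ hℓN hℓS))) * X
                  + C ((ℓ : 𝒪''))) ∧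
        (∀ q : ℕ, q.Prime → ¬ q ∣ N → q ≠ p → ρ.IsUnramifiedAt q)

/-- The trivial two-dimensional residual representation. -/
noncomputable def trivialRep (k : Type) [Field k] : ResidualGaloisRep k where
  V := Fin 2 → k
  finrank_eq := by simp
  ρ := 1
  factorsThroughFiniteLevel := ⟨⊥, inferInstance, fun _ _ => rfl⟩

/-- **S29 from S30.** -/
theorem s29_of_s30 (h30 : S30Statement)
    {N : ℕ} {g : CuspForm (CongruenceSubgroup.Gamma0 N) 2} (hg : g.IsNormalizedEigenform)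
    {p : ℕ} (hp : p.Prime) {k : Type} [Field k] [CharP k p]
    (φ : integralClosure ℤ ℂ →+* k) :
    ∃ ρ : ResidualGaloisRep k, ρ.IsAttachedTo g φ ∧
      ∀ ℓ : ℕ, ℓ.Prime → ¬ ℓ ∣ N * p → ρ.IsUnramifiedAt ℓ := by
  classical
  rcases Nat.eq_zero_or_pos N with rfl | hN
  · -- `N = 0` : everything is vacuous
    refine ⟨trivialRep k, ?_, ?_⟩
    · intro ℓ _ hℓN
      exact absurd (dvd_zero ℓ) hℓN
    · intro ℓ _ hℓ
      exact absurd (by rw [zero_mul]; exact dvd_zero ℓ) hℓ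
  haveI : NeZero N := ⟨hN.ne'⟩
  haveI : Fact p.Prime := ⟨hp⟩
  -- the set `S`
  let S : Finset ℕ := insert p N.primeFactors
  have hpS : p ∈ S := Finset.mem_insert_self _ _
  have hNS : ∀ q : ℕ, q.Prime → q ∣ N → q ∈ S := fun q hq hqN =>
    Finset.mem_insert_of_mem (Nat.mem_primeFactors.2 ⟨hq, hqN, hN.ne'⟩)
  have hnotS : ∀ ℓ : ℕ, ℓ.Prime → ¬ ℓ ∣ N → ℓ ≠ p → ℓ ∉ (↑S : Set ℕ) := by
    intro ℓ _ hℓN hℓp hmem
    rcases Finset.mem_insert.1 (Finset.mem_coe.1 hmem) with h | h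
    · exact hℓp h
    · exact hℓN (Nat.mem_primeFactors.1 h).2.1
  -- the eigencharacter
  haveI : Module.Finite ℤ (CuspForm.heckeAlgebra N 2 (↑S : Set ℕ)) :=
    Fermat.Agent.S22.result N 2 _
  let χg := Eigen.eigenChar (↑S : Set ℕ) hg
  obtain ⟨B, _, _, _, incl, χB, P, hPmax, hPfin, hPbot, hχB, hPker⟩ :=
    NumberRing.exists_dedekind (CuspForm.heckeAlgebra N 2 (↑S : Set ℕ)) χg p φ
  obtain ⟨𝒪', _, _, _, _, _, _, ι, e, he⟩ := CompleteLocal.exists_completeDVR B P hPbot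
  have hpP : (p : B) ∈ P := by
    rw [hPker, RingHom.mem_ker, map_natCast, CharP.cast_eq_zero]
  have hp𝒪' : (p : 𝒪') ∈ maximalIdeal 𝒪' := by
    rw [← residue_eq_zero_iff, ← map_natCast ι, ← he, (Ideal.Quotient.eq_zero_iff_mem).2 hpP,
      map_zero]
  let χ : CuspForm.heckeAlgebra N 2 (↑S : Set ℕ) →+* 𝒪' := ι.comp χB
  obtain ⟨𝒪'', _, _, _, _, hfin'', _, _, _, _, -, ρ, hchar, hunr⟩ :=
    h30 p N S hpS hNS 𝒪' hp𝒪' χ
  -- the residue field embeddings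
  let j₀ : B ⧸ P →+* k := Ideal.Quotient.lift P (φ.comp incl) (fun b hb => by
    rw [hPker] at hb; exact hb)
  let j' : ResidueField 𝒪' →+* k := j₀.comp e.symm.toRingHom
  have hj'res : ∀ b : B, j' (residue 𝒪' (ι b)) = φ (incl b) := by
    intro b
    change j₀ (e.symm (residue 𝒪' (ι b))) = _
    rw [← he, RingEquiv.symm_apply_apply]
    rfl
  have hj' : ∀ c : ResidueField 𝒪', ∃ a : integralClosure ℤ ℂ, j' c = φ a := by
    intro c
    obtain ⟨b, hb⟩ := Ideal.Quotient.mk_surjective (e.symm c)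
    refine ⟨incl b, ?_⟩
    change j₀ (e.symm c) = _
    rw [← hb]
    rfl
  haveI : Module.Finite (ResidueField 𝒪') (ResidueField 𝒪'') := inferInstance
  haveI : Algebra.IsAlgebraic (ResidueField 𝒪') (ResidueField 𝒪'') :=
    Algebra.IsAlgebraic.of_finite _ _
  obtain ⟨j'', hj''⟩ := ResidueEmbed.exists_residue_embedding
    (F := ResidueField 𝒪') (E := ResidueField 𝒪'') φ j' hj'
  obtain ⟨ρ', hρ'char, hρ'unr⟩ := Reduce.exists_residual ρ k j''
  refine ⟨ρ', ?_, ?_⟩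
  · intro ℓ hℓ hℓN hℓk A hA σ hσ
    have hℓp : ℓ ≠ p := by
      rintro rfl
      exact hℓk (CharP.cast_eq_zero k ℓ)
    have hℓS := hnotS ℓ hℓ hℓN hℓp
    refine ⟨χg (CuspForm.heckeAlgebra.T hℓ hℓN hℓS), Eigen.eigenChar_T _ hg hℓ hℓN hℓS, ?_⟩
    rw [hρ'char σ, hchar ℓ hℓ hℓN hℓS A hA σ hσ]
    have hkey : (j''.comp (residue 𝒪'')) (algebraMap 𝒪' 𝒪''
        (χ (CuspForm.heckeAlgebra.T hℓ hℓN hℓS))) =
        φ (χg (CuspForm.heckeAlgebra.T hℓ hℓN hℓS)) := by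
      rw [RingHom.comp_apply, ← IsLocalRing.ResidueField.algebraMap_residue, hj'']
      change j' (residue 𝒪' (ι (χB _))) = _
      rw [hj'res, hχB]
    simp only [Polynomial.map_add, Polynomial.map_sub, Polynomial.map_mul, Polynomial.map_pow,
      Polynomial.map_X, Polynomial.map_C, hkey, map_natCast, Polynomial.map_natCast]
  · intro ℓ hℓ hℓNp
    have hℓN : ¬ ℓ ∣ N := fun h => hℓNp (Dvd.dvd.mul_right h p)
    have hℓp : ℓ ≠ p := by
      rintro rfl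
      exact hℓNp (Dvd.intro_left N rfl)
    exact hρ'unr ℓ (hunr ℓ hℓ hℓN hℓp)

end Fermat.Agent.S30.Residual.S29OfS30
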