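/-
PROJECT J (S30 ⇒ S29), slice J-9: a normalised eigenform in the Prelude sense (a structure of
q-coefficient identities) is an eigenvector of every Hecke operator, and defines a character of the
Hecke algebra with values in the ring of algebraic integers.

* `qCoeff_mul_prime_of_not_dvd`, `qCoeff_mul_prime_of_dvd` : the coefficient identities
  `a_{nℓ} + ℓ a_{n/ℓ} = a_ℓ a_n` (`ℓ ∤ N`) and `a_{nq} = a_q a_n` (`q ∣ N`);
* `heckeTLin_apply_eq`, `heckeULin_apply_eq` : `T_ℓ g = a_ℓ • g`, `U_q g = a_q • g`;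
* `eigenChar hg S : heckeAlgebra N 2 S →+* ℂ` with `eigenChar_smul : eigenChar hg S t • g = t g`,
  `eigenChar_T`, `eigenChar_U`;
* `eigenCharInt hg S : heckeAlgebra N 2 S →+* integralClosure ℤ ℂ` (integrality from S22) with
  `coe_eigenCharInt`, `coe_eigenCharInt_T`;
* `trivialRep k : ResidualGaloisRep k` and `exists_of_level_zero` : the case `N = 0` of S29.
-/
import Fermat.Agent.S49.Eigenform
import Fermat.Agent.S22
import Fermat.Prelude.Def_GaloisRep_Residual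
import Fermat.Prelude.Def_FLTPrelim_ModularRep

set_option autoImplicit false

namespace Fermat.Agent.S30.Residual.EigenChar

open CuspForm ModularFormClass CongruenceSubgroup
open Fermat.Agent.S49.Eigenform

section Coefficients

variable {N : ℕ} {g : CuspForm (Gamma0 N) 2}

/-- `a_{ℓ^r m} = a_{ℓ^r} a_m` for `ℓ ∤ m`. -/
theorem qCoeff_pow_mul (hg : g.IsNormalizedEigenform) {ℓ : ℕ} (hℓ : ℓ.Prime) (r : ℕ) {m : ℕ}
    (hm : ¬ ℓ ∣ m) : qCoeff g (ℓ ^ r * m) = qCoeff g (ℓ ^ r) * qCoeff g m :=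
  hg.qCoeff_mul_of_coprime _ _ (Nat.Coprime.pow_left r ((Nat.Prime.coprime_iff_not_dvd hℓ).mpr hm))

/-- The coefficient identity behind `T_ℓ g = a_ℓ g`. -/
theorem qCoeff_mul_prime_of_not_dvd (hg : g.IsNormalizedEigenform) {ℓ : ℕ} (hℓ : ℓ.Prime)
    (hℓN : ¬ ℓ ∣ N) (n : ℕ) :
    qCoeff g (n * ℓ) + (if ℓ ∣ n then (ℓ : ℂ) * qCoeff g (n / ℓ) else 0)
      = qCoeff g ℓ * qCoeff g n := by
  rcases Nat.eq_zero_or_pos n with rfl | hn
  · simp [qCoeff_zero_eq_zero g]
  obtain ⟨r, m, hm, rfl⟩ := Nat.exists_eq_pow_mul_and_not_dvd hn.ne' ℓ hℓ.ne_one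
  rcases r with _ | s
  · -- `ℓ ∤ n`
    have hnd : ¬ ℓ ∣ ℓ ^ 0 * m := by simpa using hm
    rw [if_neg hnd, add_zero, pow_zero, one_mul, mul_comm m ℓ]
    have := qCoeff_pow_mul hg hℓ 1 hm
    rwa [pow_one] at this
  · have hd : ℓ ∣ ℓ ^ (s + 1) * m := Dvd.dvd.mul_right (dvd_pow_self ℓ (Nat.succ_ne_zero s)) m
    have h1 : ℓ ^ (s + 1) * m * ℓ = ℓ ^ (s + 2) * m := by ring
    have h2 : ℓ ^ (s + 1) * m / ℓ = ℓ ^ s * m := by
      rw [pow_succ, mul_assoc, mul_comm ℓ m, ← mul_assoc]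
      exact Nat.mul_div_cancel _ hℓ.pos
    rw [if_pos hd, h1, h2, qCoeff_pow_mul hg hℓ (s + 2) hm, qCoeff_pow_mul hg hℓ (s + 1) hm,
      qCoeff_pow_mul hg hℓ s hm, hg.qCoeff_prime_pow_of_not_dvd ℓ s hℓ hℓN]
    ring

/-- The coefficient identity behind `U_q g = a_q g`. -/
theorem qCoeff_mul_prime_of_dvd (hg : g.IsNormalizedEigenform) {q : ℕ} (hq : q.Prime)
    (hqN : q ∣ N) (n : ℕ) : qCoeff g (n * q) = qCoeff g q * qCoeff g n := by
  rcases Nat.eq_zero_or_pos n with rfl | hn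
  · simp [qCoeff_zero_eq_zero g]
  obtain ⟨r, m, hm, rfl⟩ := Nat.exists_eq_pow_mul_and_not_dvd hn.ne' q hq.ne_one
  rcases r with _ | s
  · rw [pow_zero, one_mul, mul_comm m q]
    have := qCoeff_pow_mul hg hq 1 hm
    rwa [pow_one] at this
  · have h1 : q ^ (s + 1) * m * q = q ^ (s + 2) * m := by ring
    rw [h1, qCoeff_pow_mul hg hq (s + 2) hm, qCoeff_pow_mul hg hq (s + 1) hm,
      hg.qCoeff_prime_pow_of_dvd q s hq hqN]
    ring

/-- **A normalised eigenform is an eigenvector of `T_ℓ`, `ℓ ∤ N`.** -/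
theorem heckeTLin_apply_eq (hg : g.IsNormalizedEigenform) {ℓ : ℕ} (hℓ : ℓ.Prime)
    (hℓN : ¬ ℓ ∣ N) : heckeTLin 2 hℓ hℓN g = qCoeff g ℓ • g := by
  rw [← sub_eq_zero]
  refine eq_zero_of_qCoeff _ fun n => ?_
  rw [sub_eq_add_neg, qCoeff_add, ← neg_one_smul ℂ (qCoeff g ℓ • g), qCoeff_smul, qCoeff_smul,
    qCoeff_heckeTLin hℓ hℓN g n, qCoeff_mul_prime_of_not_dvd hg hℓ hℓN n]
  ring

/-- **A normalised eigenform is an eigenvector of `U_q`, `q ∣ N`.** -/
theorem heckeULin_apply_eq [NeZero N] (hg : g.IsNormalizedEigenform) {q : ℕ} (hq : q.Prime)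
    (hqN : q ∣ N) : heckeULin 2 hqN g = qCoeff g q • g := by
  rw [← sub_eq_zero]
  refine eq_zero_of_qCoeff _ fun n => ?_
  rw [sub_eq_add_neg, qCoeff_add, ← neg_one_smul ℂ (qCoeff g q • g), qCoeff_smul, qCoeff_smul,
    qCoeff_heckeULin hqN g n, qCoeff_mul_prime_of_dvd hg hq hqN n]
  ring

end Coefficients

section Character

variable {N : ℕ} [NeZero N] {g : CuspForm (Gamma0 N) 2}

/-- Every element of the Hecke algebra acts on a normalised eigenform by a scalar. -/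
theorem exists_smul_eq (hg : g.IsNormalizedEigenform) (S : Set ℕ)
    (t : Module.End ℂ (CuspForm (Gamma0 N) 2)) (ht : t ∈ heckeAlgebra N 2 S) :
    ∃ c : ℂ, t g = c • g := by
  induction ht using Algebra.adjoin_induction with
  | mem t ht =>
    rcases ht with ⟨ℓ, hℓ, hℓN, -, rfl⟩ | ⟨q, hqN, hq, -, rfl⟩
    · exact ⟨_, heckeTLin_apply_eq hg hℓ hℓN⟩
    · exact ⟨_, heckeULin_apply_eq hg hq hqN⟩
  | algebraMap m =>
    refine ⟨(m : ℂ), ?_⟩
    rw [Algebra.algebraMap_eq_smul_one, LinearMap.smul_apply, Module.End.one_apply,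
      Int.cast_smul_eq_zsmul]
  | add s t _ _ hs ht =>
    obtain ⟨a, ha⟩ := hs
    obtain ⟨b, hb⟩ := ht
    exact ⟨a + b, by rw [LinearMap.add_apply, ha, hb, add_smul]⟩
  | mul s t _ _ hs ht =>
    obtain ⟨a, ha⟩ := hs
    obtain ⟨b, hb⟩ := ht
    exact ⟨a * b, by rw [Module.End.mul_apply, hb, map_smul, ha, smul_smul, mul_comm]⟩

/-- The eigenvalue of `t` on `g`, read off from the first q-coefficient. -/
noncomputable def eigenValue (g : CuspForm (Gamma0 N) 2) (S : Set ℕ) (t : heckeAlgebra N 2 S) : ℂ :=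
  qCoeff ((t : Module.End ℂ (CuspForm (Gamma0 N) 2)) g) 1

theorem eigenValue_smul (hg : g.IsNormalizedEigenform) (S : Set ℕ) (t : heckeAlgebra N 2 S) :
    eigenValue g S t • g = (t : Module.End ℂ (CuspForm (Gamma0 N) 2)) g := by
  obtain ⟨c, hc⟩ := exists_smul_eq hg S t.1 t.2
  rw [eigenValue, hc, qCoeff_smul, hg.qCoeff_one, mul_one]

omit [NeZero N] in
theorem eq_of_smul_eq (hg : g.IsNormalizedEigenform) {a b : ℂ} (h : a • g = b • g) : a = b :=
  smul_left_injective ℂ hg.ne_zero h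

/-- **The character of the Hecke algebra attached to a normalised eigenform.** -/
noncomputable def eigenChar (hg : g.IsNormalizedEigenform) (S : Set ℕ) :
    heckeAlgebra N 2 S →+* ℂ where
  toFun := eigenValue g S
  map_one' := eq_of_smul_eq hg (by
    rw [eigenValue_smul hg, one_smul]
    rfl)
  map_mul' s t := eq_of_smul_eq hg (by
    rw [eigenValue_smul hg, mul_comm (eigenValue g S s), mul_smul, eigenValue_smul hg,
      ← map_smul, eigenValue_smul hg]
    rfl)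
  map_zero' := eq_of_smul_eq hg (by
    rw [eigenValue_smul hg, zero_smul]
    rfl)
  map_add' s t := eq_of_smul_eq hg (by
    rw [eigenValue_smul hg, add_smul, eigenValue_smul hg, eigenValue_smul hg]
    rfl)

theorem eigenChar_smul (hg : g.IsNormalizedEigenform) (S : Set ℕ) (t : heckeAlgebra N 2 S) :
    eigenChar hg S t • g = (t : Module.End ℂ (CuspForm (Gamma0 N) 2)) g :=
  eigenValue_smul hg S t

theorem eigenChar_T (hg : g.IsNormalizedEigenform) {S : Set ℕ} {ℓ : ℕ} (hℓ : ℓ.Prime)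
    (hℓN : ¬ ℓ ∣ N) (hℓS : ℓ ∉ S) :
    eigenChar hg S (heckeAlgebra.T hℓ hℓN hℓS) = qCoeff g ℓ :=
  eq_of_smul_eq hg (by
    rw [eigenChar_smul, heckeAlgebra.coe_T, heckeTLin_apply_eq hg hℓ hℓN])

theorem eigenChar_U (hg : g.IsNormalizedEigenform) {S : Set ℕ} {q : ℕ} (hq : q.Prime)
    (hqN : q ∣ N) (hqS : q ∉ S) :
    eigenChar hg S (heckeAlgebra.U hq hqN hqS) = qCoeff g q :=
  eq_of_smul_eq hg (by
    rw [eigenChar_smul, heckeAlgebra.coe_U, heckeULin_apply_eq hg hq hqN])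

/-- The values of the eigen-character are algebraic integers (S22). -/
theorem isIntegral_eigenChar (hg : g.IsNormalizedEigenform) (S : Set ℕ) (t : heckeAlgebra N 2 S) :
    IsIntegral ℤ (eigenChar hg S t) := by
  have := Fermat.Agent.S22.result N 2 S
  have ht : IsIntegral ℤ t := Algebra.IsIntegral.isIntegral t
  exact ht.map (eigenChar hg S).toIntAlgHom

/-- **The eigen-character with values in the ring of algebraic integers.** -/
noncomputable def eigenCharInt (hg : g.IsNormalizedEigenform) (S : Set ℕ) :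
    heckeAlgebra N 2 S →+* integralClosure ℤ ℂ :=
  ((eigenChar hg S).toIntAlgHom.codRestrict (integralClosure ℤ ℂ)
    (fun t => isIntegral_eigenChar hg S t)).toRingHom

@[simp]
theorem coe_eigenCharInt (hg : g.IsNormalizedEigenform) (S : Set ℕ) (t : heckeAlgebra N 2 S) :
    ((eigenCharInt hg S t : integralClosure ℤ ℂ) : ℂ) = eigenChar hg S t := rfl

theorem coe_eigenCharInt_T (hg : g.IsNormalizedEigenform) {S : Set ℕ} {ℓ : ℕ} (hℓ : ℓ.Prime)
    (hℓN : ¬ ℓ ∣ N) (hℓS : ℓ ∉ S) :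
    ((eigenCharInt hg S (heckeAlgebra.T hℓ hℓN hℓS) : integralClosure ℤ ℂ) : ℂ) = qCoeff g ℓ :=
  eigenChar_T hg hℓ hℓN hℓS

/-- The first q-coefficient at a prime `ℓ ∤ N` is an algebraic integer. -/
theorem isIntegral_qCoeff_prime (hg : g.IsNormalizedEigenform) {ℓ : ℕ} (hℓ : ℓ.Prime)
    (hℓN : ¬ ℓ ∣ N) : IsIntegral ℤ (qCoeff g ℓ) := by
  have h := isIntegral_eigenChar hg (∅ : Set ℕ) (heckeAlgebra.T hℓ hℓN (Set.notMem_empty ℓ))
  rwa [eigenChar_T] at h

end Character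

section LevelZero

open Polynomial

/-- The trivial two-dimensional residual representation. -/
noncomputable def trivialRep (k : Type) [Field k] : ResidualGaloisRep k where
  V := Fin 2 → k
  finrank_eq := by simp
  ρ := 1
  factorsThroughFiniteLevel := ⟨⊥, inferInstance, fun _ _ => rfl⟩

/-- The case `N = 0` of S29: both conclusions are vacuous. -/
theorem exists_of_level_zero {g : CuspForm (Gamma0 0) 2} {p : ℕ} {k : Type} [Field k]
    (φ : integralClosure ℤ ℂ →+* k) :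
    ∃ ρ : ResidualGaloisRep k, ρ.IsAttachedTo g φ ∧
      ∀ ℓ : ℕ, ℓ.Prime → ¬ ℓ ∣ 0 * p → ρ.IsUnramifiedAt ℓ :=
  ⟨trivialRep k, fun ℓ _ hℓ0 => absurd (dvd_zero ℓ) hℓ0,
    fun ℓ _ hℓ0 => absurd (by rw [zero_mul]; exact dvd_zero ℓ) hℓ0⟩

end LevelZero

end Fermat.Agent.S30.Residual.EigenChar
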