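import Mathlib
import Fermat.Prelude.Def_GaloisRep_Residual
import Fermat.Prelude.Def_FreyPackage_EigenformResidualAttachment
import Fermat.Agent.S13.CU.FreyInputs

/-!
# `S42` from the statement of `S29`

Hypotheses-first deduction of the frozen statement `S42` (residual attachment for the prime of a
Frey package, at every level `M > 0`) from the frozen statement `S29`, taken as a hypothesis.
-/

set_option autoImplicit false

namespace Fermat.Agent.S30.Residual.FreyAttach

open Polynomial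
open scoped WeierstrassCurve.Affine

local notation "Qbar" => AlgebraicClosure ℚ
local notation "GQ" => (AlgebraicClosure ℚ ≃ₐ[ℚ] AlgebraicClosure ℚ)

/-! ### Trace and determinant from a quadratic characteristic polynomial -/

section charpoly

variable {K : Type*} [Field K] {V : Type*} [AddCommGroup V] [Module K V] [Module.Finite K V]

theorem trace_det_of_charpoly (h2 : Module.finrank K V = 2) (f : V →ₗ[K] V) (t d : K)
    (hf : LinearMap.charpoly f = X ^ 2 - C t * X + C d) :
    LinearMap.trace K V f = t ∧ LinearMap.det f = d := by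
  let b : Module.Basis (Fin 2) K V := Module.finBasisOfFinrankEq K V h2
  have hM : (LinearMap.toMatrix b b f).charpoly = X ^ 2 - C t * X + C d := by
    rw [LinearMap.charpoly_toMatrix, hf]
  have hc : (LinearMap.toMatrix b b f).charpoly =
      X ^ 2 - C (LinearMap.toMatrix b b f).trace * X + C (LinearMap.toMatrix b b f).det :=
    Matrix.charpoly_fin_two _
  rw [hM] at hc
  have h1 := congrArg (fun q : K[X] => q.coeff 1) hc
  have h0 := congrArg (fun q : K[X] => q.coeff 0) hc
  simp [coeff_X, coeff_C] at h1 h0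
  constructor
  · rw [LinearMap.trace_eq_matrix_trace K b f]
    exact h1.symm
  · exact h0.symm

end charpoly

/-! ### The torsion representation of a Weierstrass curve factors through a finite level -/

section level

open WeierstrassCurve WeierstrassCurve.Affine

variable [DecidableEq Qbar]

/-- The set of affine coordinates of a point. -/
def coords (W : Affine Qbar) : W.Point → Set Qbar
  | .zero => ∅
  | .some x y _ => {x, y}

theorem finite_coords (W : Affine Qbar) (T : W.Point) : (coords W T).Finite := by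
  cases T with
  | zero => exact Set.finite_empty
  | some x y h => exact Set.toFinite {x, y}

theorem smul_eq_of_fixes_coords (W : Affine ℚ) (σ : GQ) (T : (W⁄Qbar).Point)
    (h : ∀ x ∈ coords (W⁄Qbar) T, σ x = x) : σ • T = T := by
  rw [Point.algEquiv_smul_def]
  cases T with
  | zero => rfl
  | some x y hxy =>
    rw [Point.map_some]
    have hx : σ x = x := h x (by simp [coords])
    have hy : σ y = y := h y (by simp [coords])
    congr 1

theorem factorsThroughFiniteLevel_of_finite (W : Affine ℚ) (n : ℕ)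
    [Finite (Submodule.torsionBy ℤ (W⁄Qbar).Point n)] :
    GaloisFactorsThroughFiniteLevel (Point.galoisRepModuleEnd (K := Qbar) ℚ W n) := by
  classical
  let s : Set Qbar := ⋃ t : Submodule.torsionBy ℤ (W⁄Qbar).Point n, coords (W⁄Qbar) t.1
  have hs : s.Finite := Set.finite_iUnion fun t => finite_coords _ _
  haveI : Finite s := hs
  refine ⟨IntermediateField.adjoin ℚ s,
    IntermediateField.finiteDimensional_adjoin fun x _ =>
      ((AlgebraicClosure.isAlgebraic ℚ).isAlgebraic x).isIntegral, fun σ hσ => ?_⟩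
  refine LinearMap.ext fun t => Subtype.ext ?_
  show σ • (t : (W⁄Qbar).Point) = t
  refine smul_eq_of_fixes_coords W σ _ fun x hx => hσ x ?_
  exact IntermediateField.subset_adjoin ℚ s (Set.mem_iUnion.mpr ⟨t, hx⟩)

end level

/-! ### A Galois number field through which a finite level factors -/

theorem exists_galois_numberField (L : IntermediateField ℚ Qbar) [FiniteDimensional ℚ L] :
    ∃ (F : Type) (_ : Field F) (_ : NumberField F) (_ : IsGalois ℚ F)
      (_ : Algebra F Qbar) (_ : IsScalarTower ℚ F Qbar),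
      ∀ σ ∈ (AlgEquiv.restrictNormalHom (F := ℚ) (K₁ := Qbar) F).ker, ∀ x ∈ L, σ x = x := by
  have : Normal ℚ Qbar := normal_iff.mpr fun x =>
    ⟨((AlgebraicClosure.isAlgebraic ℚ).isAlgebraic x).isIntegral, IsAlgClosed.splits _⟩
  let E : IntermediateField ℚ Qbar := IntermediateField.normalClosure ℚ L Qbar
  have : FiniteDimensional ℚ E := normalClosure.is_finiteDimensional ℚ L Qbar
  have : Normal ℚ E := normalClosure.normal ℚ L Qbar
  have hLE : L ≤ E := IntermediateField.le_normalClosure L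
  refine ⟨↥E, inferInstance, ?_, ?_, inferInstance, ?_, ?_⟩
  · exact { to_charZero := inferInstance, to_finiteDimensional := inferInstance }
  · exact { to_isSeparable := inferInstance, to_normal := inferInstance }
  · infer_instance
  · intro σ hσ x hx
    have h1 : (AlgEquiv.restrictNormalHom (F := ℚ) (K₁ := Qbar) ↥E) σ = 1 := hσ
    have h2 := AlgEquiv.restrictNormal_commutes σ ↥E ⟨x, hLE hx⟩
    have h3 : σ.restrictNormal ↥E = 1 := h1
    rw [h3] at h2
    exact h2.symm

/-! ### The deduction -/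

/-- The statement of `S29`, verbatim. -/
def S29Prop : Prop :=
  ∀ {N : ℕ} {g : CuspForm (CongruenceSubgroup.Gamma0 N) 2} (_hg : g.IsNormalizedEigenform)
    {p : ℕ} (_hp : p.Prime) {k : Type} [Field k] [CharP k p]
    (φ : integralClosure ℤ ℂ →+* k),
    ∃ ρ : ResidualGaloisRep k, ρ.IsAttachedTo g φ ∧
      ∀ ℓ : ℕ, ℓ.Prime → ¬ ℓ ∣ N * p → ρ.IsUnramifiedAt ℓ

theorem s42_of_s29 (h29 : S29Prop) (P : FreyPackage) :
    ∀ M : ℕ, 0 < M → P.EigenformResidualAttachmentAt M := by
  intro M _hM g hg 𝔪 h𝔪 hp𝔪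
  letI : Field (integralClosure ℤ ℂ ⧸ 𝔪) := Ideal.Quotient.field 𝔪
  have hp0 : ((P.p : ℕ) : integralClosure ℤ ℂ ⧸ 𝔪) = 0 := by
    have := (Ideal.Quotient.eq_zero_iff_mem (I := 𝔪)).mpr hp𝔪
    simpa using this
  haveI : CharP (integralClosure ℤ ℂ ⧸ 𝔪) P.p := (CharP.charP_iff_prime_eq_zero P.pp).mpr hp0
  letI : Algebra (ZMod P.p) (integralClosure ℤ ℂ ⧸ 𝔪) := ZMod.algebra _ P.p
  obtain ⟨ρ, hatt, -⟩ := h29 hg P.pp (Ideal.Quotient.mk 𝔪)
  -- the two finite levels
  obtain ⟨L₁, hL₁, hρ⟩ := ρ.factorsThroughFiniteLevel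
  haveI : Finite (Submodule.torsionBy ℤ (P.freyCurve⁄Qbar).Point P.p) :=
    Nat.finite_of_card_ne_zero (by
      rw [Fermat.Agent.S13.CU.FreyInputs.natCard_frey P]
      exact pow_ne_zero 2 P.hp0)
  obtain ⟨L₂, hL₂, hE⟩ := factorsThroughFiniteLevel_of_finite P.freyCurve P.p
  haveI : FiniteDimensional ℚ ↥(L₁ ⊔ L₂) := IntermediateField.finiteDimensional_sup L₁ L₂
  obtain ⟨F, iF, iNF, iGal, iAlg, iST, hF⟩ := exists_galois_numberField (L₁ ⊔ L₂)
  have hℓK : ∀ ℓ : ℕ, ℓ.Prime → ℓ ≠ P.p → ((ℓ : ℕ) : integralClosure ℤ ℂ ⧸ 𝔪) ≠ 0 := by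
    intro ℓ hℓ hne h0
    have hdvd : P.p ∣ ℓ := (CharP.cast_eq_zero_iff (integralClosure ℤ ℂ ⧸ 𝔪) P.p ℓ).mp h0
    exact hne ((Nat.prime_dvd_prime_iff_eq P.pp hℓ).mp hdvd).symm
  refine ⟨integralClosure ℤ ℂ ⧸ 𝔪, inferInstance, inferInstance, ρ.V, inferInstance, inferInstance,
    ρ.ρ, Ideal.Quotient.mk 𝔪, F, iF, iNF, iGal, iAlg, iST, ?_, ρ.finrank_eq, ?_, ?_, ?_⟩
  · intro x hx
    exact (Ideal.Quotient.eq_zero_iff_mem (I := 𝔪)).mpr hx
  · intro σ hσ
    have hfix := hF σ hσ
    refine ⟨?_, ?_⟩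
    · exact hE σ fun x hx => hfix x ((le_sup_right : L₂ ≤ L₁ ⊔ L₂) hx)
    · exact hρ σ fun x hx => hfix x ((le_sup_left : L₁ ≤ L₁ ⊔ L₂) hx)
  · intro ℓ hℓ hℓM hℓp A hA τ hτ
    obtain ⟨a, ha, hchar⟩ := hatt ℓ hℓ hℓM (hℓK ℓ hℓ hℓp) A hA τ hτ
    exact ⟨a, ha, (trace_det_of_charpoly ρ.finrank_eq _ _ _ hchar).1⟩
  · intro ℓ hℓ hℓM hℓp A hA τ hτ
    obtain ⟨a, _, hchar⟩ := hatt ℓ hℓ hℓM (hℓK ℓ hℓ hℓp) A hA τ hτ
    exact (trace_det_of_charpoly ρ.finrank_eq _ _ _ hchar).2

end Fermat.Agent.S30.Residual.FreyAttach
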